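import Mathlib.RingTheory.IntegralClosure.IntegrallyClosed
import Mathlib.FieldTheory.IsAlgClosed.AlgebraicClosure
import Mathlib.RingTheory.Localization.FractionRing
import Fermat.Agent.A2.H969.Krull

/-!
# A2 / KRULL, part 2: the ideals `I_j = {f | f ^ m ∈ (u ^ j)}` in a normal domain
(Mathlib only; notation of the node purity lemma (P), `origin/helper609:coord/A2-helper609.md`)

`R` an integrally closed domain, `u ≠ 0`, `m > 0`.

* `pow_add_mem_span_pow` : `f ^ m, g ^ m ∈ (u ^ j)` ⇒ `(f + g) ^ m ∈ (u ^ j)`.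
* `powRootIdeal u m j` : the ideal `I_j`, with `mem_powRootIdeal`.
* `powRootIdeal_zero = ⊤`, `powRootIdeal_self = (u)`, antitone in `j`, `u • I_j ≤ I_{j+m}`,
  `I_j * I_k ≤ I_{j+k}`.
* `mem_powRootIdeal_of_mul_mem` : if `π` is a nonzerodivisor modulo `u ^ j`, then
  `π * f ∈ I_j → f ∈ I_j` (so `R ⧸ I_j` has no `π`-torsion).
-/

set_option autoImplicit false

namespace Fermat.Agent.A2.H969

variable {R : Type*} [CommRing R] [IsDomain R] [IsIntegrallyClosed R]

/-- In an integrally closed domain, `z ^ m ∈ (v)`-type divisibility is additive: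
if `f ^ m` and `g ^ m` are divisible by `v ≠ 0`, so is `(f + g) ^ m`. -/
theorem pow_add_dvd_of_dvd_pow {v : R} (hv : v ≠ 0) {m : ℕ} (hm : 0 < m) {f g : R}
    (hf : v ∣ f ^ m) (hg : v ∣ g ^ m) : v ∣ (f + g) ^ m := by
  classical
  let K := FractionRing R
  let L := AlgebraicClosure K
  have hinjK : Function.Injective (algebraMap R K) := IsFractionRing.injective R K
  have hinjKL : Function.Injective (algebraMap K L) := (algebraMap K L).injective
  have hRL : ∀ r : R, algebraMap R L r = algebraMap K L (algebraMap R K r) :=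
    fun r => IsScalarTower.algebraMap_apply R K L r
  obtain ⟨w, hw⟩ := IsAlgClosed.exists_pow_nat_eq (algebraMap R L v) hm
  have hvL : algebraMap R L v ≠ 0 := by
    rw [hRL, Ne, map_eq_zero_iff _ hinjKL, map_eq_zero_iff _ hinjK]
    exact hv
  have hw0 : w ≠ 0 := by
    rintro rfl
    rw [zero_pow hm.ne'] at hw
    exact hvL hw.symm
  have key : ∀ h : R, v ∣ h ^ m → IsIntegral R (algebraMap R L h / w) := by
    rintro h ⟨a, ha⟩
    refine IsIntegral.of_pow hm ?_
    have : (algebraMap R L h / w) ^ m = algebraMap R L a := by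
      rw [div_pow, hw, ← map_pow, ha, map_mul, mul_div_cancel_left₀ _ hvL]
    rw [this]
    exact isIntegral_algebraMap
  have hsum : IsIntegral R (algebraMap R L (f + g) / w) := by
    rw [map_add, add_div]
    exact (key f hf).add (key g hg)
  have hpow : IsIntegral R ((algebraMap R L (f + g) / w) ^ m) := hsum.pow m
  have heq : (algebraMap R L (f + g) / w) ^ m
      = algebraMap K L (algebraMap R K ((f + g) ^ m) / algebraMap R K v) := by
    rw [div_pow, hw, ← map_pow, map_div₀, ← hRL, ← hRL]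
  rw [heq, isIntegral_algebraMap_iff hinjKL] at hpow
  obtain ⟨c, hc⟩ := IsIntegrallyClosed.algebraMap_eq_of_integral hpow
  have hvK : algebraMap R K v ≠ 0 := by rwa [Ne, map_eq_zero_iff _ hinjK]
  refine ⟨c, hinjK ?_⟩
  rw [map_mul, hc, mul_div_cancel₀ _ hvK]

/-- The ideal `I_j = {f | u ^ j ∣ f ^ m}` of an integrally closed domain (`u ≠ 0`, `m > 0`). -/
def powRootIdeal (u : R) (hu : u ≠ 0) (m : ℕ) (hm : 0 < m) (j : ℕ) : Ideal R where
  carrier := {f | u ^ j ∣ f ^ m}
  zero_mem' := by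
    show u ^ j ∣ (0 : R) ^ m
    rw [zero_pow hm.ne']
    exact dvd_zero _
  add_mem' := fun {f g} hf hg => pow_add_dvd_of_dvd_pow (pow_ne_zero j hu) hm hf hg
  smul_mem' := fun r f hf => by
    show u ^ j ∣ (r * f) ^ m
    rw [mul_pow]
    exact Dvd.dvd.mul_left hf _

variable {u : R} {hu : u ≠ 0} {m : ℕ} {hm : 0 < m}

@[simp]
theorem mem_powRootIdeal {j : ℕ} {f : R} : f ∈ powRootIdeal u hu m hm j ↔ u ^ j ∣ f ^ m :=
  Iff.rfl

theorem powRootIdeal_zero : powRootIdeal u hu m hm 0 = ⊤ := by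
  rw [Ideal.eq_top_iff_one, mem_powRootIdeal, pow_zero]
  exact one_dvd _

/-- In an integrally closed domain `u ^ m ∣ f ^ m → u ∣ f`. -/
theorem dvd_of_pow_dvd_pow {v f : R} (hv : v ≠ 0) {n : ℕ} (hn : 0 < n)
    (h : v ^ n ∣ f ^ n) : v ∣ f := by
  let K := FractionRing R
  have hinjK : Function.Injective (algebraMap R K) := IsFractionRing.injective R K
  have hvK : algebraMap R K v ≠ 0 := by rwa [Ne, map_eq_zero_iff _ hinjK]
  obtain ⟨a, ha⟩ := h
  have hint : IsIntegral R (algebraMap R K f / algebraMap R K v) := by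
    refine IsIntegral.of_pow hn ?_
    have : (algebraMap R K f / algebraMap R K v) ^ n = algebraMap R K a := by
      rw [div_pow, ← map_pow, ← map_pow, ha, map_mul,
        mul_div_cancel_left₀ _ (by rw [map_pow]; exact pow_ne_zero n hvK)]
    rw [this]
    exact isIntegral_algebraMap
  obtain ⟨c, hc⟩ := IsIntegrallyClosed.algebraMap_eq_of_integral hint
  refine ⟨c, hinjK ?_⟩
  rw [map_mul, hc, mul_div_cancel₀ _ hvK]

theorem powRootIdeal_self : powRootIdeal u hu m hm m = Ideal.span {u} := by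
  ext f
  rw [mem_powRootIdeal, Ideal.mem_span_singleton]
  exact ⟨dvd_of_pow_dvd_pow hu hm, fun h => pow_dvd_pow_of_dvd h m⟩

theorem powRootIdeal_antitone {j k : ℕ} (hjk : j ≤ k) :
    powRootIdeal u hu m hm k ≤ powRootIdeal u hu m hm j := fun _ hf =>
  (pow_dvd_pow u hjk).trans hf

theorem mul_mem_powRootIdeal_add {j k : ℕ} {f g : R} (hf : f ∈ powRootIdeal u hu m hm j)
    (hg : g ∈ powRootIdeal u hu m hm k) : f * g ∈ powRootIdeal u hu m hm (j + k) := by
  rw [mem_powRootIdeal] at *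
  rw [mul_pow, pow_add]
  exact mul_dvd_mul hf hg

theorem self_mem_powRootIdeal : u ∈ powRootIdeal u hu m hm m := by
  rw [mem_powRootIdeal]

theorem self_mul_mem_powRootIdeal {j : ℕ} {f : R} (hf : f ∈ powRootIdeal u hu m hm j) :
    u * f ∈ powRootIdeal u hu m hm (m + j) :=
  mul_mem_powRootIdeal_add self_mem_powRootIdeal hf

/-- Conversely, `u * f ∈ I_{m+j} → f ∈ I_j`. -/
theorem mem_powRootIdeal_of_self_mul_mem {j : ℕ} {f : R}
    (hf : u * f ∈ powRootIdeal u hu m hm (m + j)) : f ∈ powRootIdeal u hu m hm j := by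
  rw [mem_powRootIdeal] at *
  rw [mul_pow, pow_add] at hf
  exact (mul_dvd_mul_iff_left (pow_ne_zero m hu)).1 hf

/-- If `π` is a nonzerodivisor modulo `u ^ j`, then `R ⧸ I_j` has no `π`-torsion. -/
theorem mem_powRootIdeal_of_mul_mem {j : ℕ} {π f : R}
    (hπ : ∀ x : R, u ^ j ∣ π * x → u ^ j ∣ x)
    (hf : π * f ∈ powRootIdeal u hu m hm j) : f ∈ powRootIdeal u hu m hm j := by
  rw [mem_powRootIdeal] at *
  rw [mul_pow] at hf
  have : ∀ n : ℕ, ∀ x : R, u ^ j ∣ π ^ n * x → u ^ j ∣ x := by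
    intro n
    induction n with
    | zero => intro x hx; simpa using hx
    | succ n ih =>
      intro x hx
      refine ih x (hπ _ ?_)
      rwa [← mul_assoc, ← pow_succ']
  exact this m _ hf

/-- Associated-prime form of the regularity hypothesis: if `π` lies in no associated prime of
`R ⧸ (u ^ j)`, then `R ⧸ I_j` has no `π`-torsion. -/
theorem mem_powRootIdeal_of_mul_mem' [IsNoetherianRing R] {j : ℕ} {π f : R}
    (hπ : ∀ P : Ideal R, IsAssociatedPrime P (R ⧸ Ideal.span {u ^ j}) → π ∉ P)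
    (hf : π * f ∈ powRootIdeal u hu m hm j) : f ∈ powRootIdeal u hu m hm j := by
  refine mem_powRootIdeal_of_mul_mem (fun x hx => ?_) hf
  rw [← Ideal.mem_span_singleton] at hx ⊢
  exact mem_span_singleton_of_mul_mem (u ^ j) π x hπ hx

/-- DVR form of the regularity hypothesis (see `dvd_of_dvd_mul_of_forall_not_dvr`): if no prime
`P ∋ u, π` has `R_P` a DVR, then `R ⧸ I_j` has no `π`-torsion. -/
theorem mem_powRootIdeal_of_mul_mem_of_forall_not_dvr [IsNoetherianRing R] {j : ℕ} {π f : R}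
    (h : ∀ (P : Ideal R) [P.IsPrime], u ∈ P → π ∈ P →
      ¬ IsDiscreteValuationRing (Localization.AtPrime P))
    (hf : π * f ∈ powRootIdeal u hu m hm j) : f ∈ powRootIdeal u hu m hm j :=
  mem_powRootIdeal_of_mul_mem (dvd_of_dvd_mul_of_forall_not_dvr u hu π h j) hf

end Fermat.Agent.A2.H969
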