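import Mathlib.RingTheory.IntegralClosure.IntegrallyClosed
import Mathlib.RingTheory.Polynomial.ScaleRoots
import Mathlib.RingTheory.Localization.Away.Basic
import Mathlib.RingTheory.Nilpotent.Basic

/-!
# A2 / NRM: "`B[1/π]` normal + `B/π` reduced ⇒ `B` normal"  (Mathlib only)

`B` a domain with fraction field `K`, `π : B`.

* `dvd_of_dvd_pow_of_isReduced` : `B/π` reduced, `π ∣ y ^ n` ⇒ `π ∣ y`.
* `mem_range_of_isIntegral_of_mul_pow` : if `z : K` is integral over `B`, `z * π ^ k = y` with
  `y : B` and `B/π` is reduced, then `z ∈ B`.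
* `isIntegrallyClosed_of_away` : elementwise form of the hypothesis "`B[1/π]` is integrally closed"
  (every integral `z : K` has `z * π ^ k ∈ B` for some `k`) + `B/π` reduced ⇒ `B` integrally closed.
-/

set_option autoImplicit false
set_option linter.unusedSectionVars false

namespace Fermat.Agent.A2.H969

open Polynomial

variable {B : Type*} [CommRing B]

/-- If `B/π` is reduced and `π ∣ y ^ n` then `π ∣ y`. -/
theorem dvd_of_dvd_pow_of_isReduced (π : B) [IsReduced (B ⧸ Ideal.span {π})]
    {y : B} {n : ℕ} (h : π ∣ y ^ n) : π ∣ y := by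
  have h1 : (Ideal.Quotient.mk (Ideal.span {π}) y) ^ n = 0 := by
    rw [← map_pow, Ideal.Quotient.eq_zero_iff_mem, Ideal.mem_span_singleton]
    exact h
  have h2 : Ideal.Quotient.mk (Ideal.span {π}) y = 0 :=
    IsReduced.eq_zero _ ⟨n, h1⟩
  rwa [Ideal.Quotient.eq_zero_iff_mem, Ideal.mem_span_singleton] at h2

variable [IsDomain B] {K : Type*} [Field K] [Algebra B K] [IsFractionRing B K]

omit [IsDomain B] in
/-- One step: if `z` is integral over `B`, `z * π ^ (k+1) = y ∈ B` and `B/π` is reduced,
then `π ∣ y`. -/
theorem dvd_of_isIntegral_of_mul_pow_succ (π : B) [IsReduced (B ⧸ Ideal.span {π})]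
    {z : K} (hz : IsIntegral B z) {k : ℕ} {y : B}
    (hy : z * algebraMap B K π ^ (k + 1) = algebraMap B K y) : π ∣ y := by
  obtain ⟨p, hp, hpz⟩ := hz
  -- the scaled polynomial kills `y`
  have hinj : Function.Injective (algebraMap B K) := IsFractionRing.injective B K
  have hq : (scaleRoots p (π ^ (k + 1))).eval y = 0 := by
    apply hinj
    rw [map_zero, ← Polynomial.eval₂_at_apply (algebraMap B K)]
    have := scaleRoots_eval₂_mul (p := p) (algebraMap B K) z (π ^ (k + 1))
    rw [hpz, mul_zero] at this
    rw [← hy, map_pow] at *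
    rw [mul_comm z] 
    exact this
  -- hence `y ^ n ∈ (π)`
  set q := scaleRoots p (π ^ (k + 1)) with hqdef
  have hqm : q.Monic := (monic_scaleRoots_iff _).2 hp
  have hn : q.natDegree = p.natDegree := natDegree_scaleRoots _ _
  have hdvd : π ∣ y ^ p.natDegree := by
    have hsum : q.eval y = ∑ i ∈ Finset.range (q.natDegree + 1), q.coeff i * y ^ i :=
      Polynomial.eval_eq_sum_range y
    rw [hq, Finset.sum_range_succ, hqm.coeff_natDegree, one_mul, hn] at hsum
    have hlow : π ∣ ∑ i ∈ Finset.range p.natDegree, q.coeff i * y ^ i := by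
      refine Finset.dvd_sum fun i hi => ?_
      rw [Finset.mem_range] at hi
      rw [hqdef, coeff_scaleRoots]
      have : π ∣ (π ^ (k + 1)) ^ (p.natDegree - i) := by
        refine dvd_pow (dvd_pow_self π (Nat.succ_ne_zero k)) ?_
        omega
      exact Dvd.dvd.mul_right (Dvd.dvd.mul_left this _) _
    have : y ^ p.natDegree = -∑ i ∈ Finset.range p.natDegree, q.coeff i * y ^ i := by
      rw [eq_neg_iff_add_eq_zero, add_comm]
      exact hsum.symm
    rw [this]
    exact (dvd_neg).2 hlow
  exact dvd_of_dvd_pow_of_isReduced π hdvd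

omit [IsDomain B] in
/-- If `z : K` is integral over `B`, `z * π ^ k ∈ B` for some `k`, `π ≠ 0` and `B/π` is reduced,
then `z ∈ B`. -/
theorem mem_range_of_isIntegral_of_mul_pow (π : B) (hπ : π ≠ 0)
    [IsReduced (B ⧸ Ideal.span {π})] {z : K} (hz : IsIntegral B z) :
    ∀ (k : ℕ) (y : B), z * algebraMap B K π ^ k = algebraMap B K y →
      ∃ x : B, algebraMap B K x = z := by
  have hinj : Function.Injective (algebraMap B K) := IsFractionRing.injective B K
  have hπK : algebraMap B K π ≠ 0 := by
    rwa [Ne, map_eq_zero_iff _ hinj]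
  intro k
  induction k with
  | zero =>
    intro y hy
    exact ⟨y, by rw [← hy, pow_zero, mul_one]⟩
  | succ k ih =>
    intro y hy
    obtain ⟨y', rfl⟩ := dvd_of_isIntegral_of_mul_pow_succ π hz hy
    refine ih y' ?_
    have h1 : z * algebraMap B K π ^ k * algebraMap B K π
        = algebraMap B K y' * algebraMap B K π := by
      rw [mul_assoc, ← pow_succ, hy, map_mul, mul_comm]
    exact mul_right_cancel₀ hπK h1

/-- **NRM.**  Elementwise form: if every `z : K` integral over `B` becomes an element of `B`
after multiplication by a power of `π` (e.g. because `B[1/π]` is integrally closed), and `B/π`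
is reduced, then `B` is integrally closed. -/
theorem isIntegrallyClosed_of_away (π : B) (hπ : π ≠ 0) [IsReduced (B ⧸ Ideal.span {π})]
    (h : ∀ z : K, IsIntegral B z → ∃ (k : ℕ) (y : B), z * algebraMap B K π ^ k = algebraMap B K y) :
    IsIntegrallyClosed B := by
  rw [isIntegrallyClosed_iff K]
  intro z hz
  obtain ⟨k, y, hy⟩ := h z hz
  exact mem_range_of_isIntegral_of_mul_pow π hπ hz k y hy

/-- **NRM**, localisation form: `Localization.Away π` integrally closed and `B/π` reduced
imply `B` integrally closed. -/
theorem isIntegrallyClosed_of_isIntegrallyClosed_away (π : B) (hπ : π ≠ 0)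
    [IsReduced (B ⧸ Ideal.span {π})] [IsIntegrallyClosed (Localization.Away π)] :
    IsIntegrallyClosed B := by
  classical
  let K := FractionRing B
  have hinj : Function.Injective (algebraMap B K) := IsFractionRing.injective B K
  have hu : IsUnit (algebraMap B K π) := by
    rw [isUnit_iff_ne_zero, Ne, map_eq_zero_iff _ hinj]
    exact hπ
  let φ : Localization.Away π →+* K := IsLocalization.Away.lift π hu
  have hφ : ∀ x : B, φ (algebraMap B (Localization.Away π) x) = algebraMap B K x :=
    fun x => IsLocalization.Away.lift_eq π hu x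
  let _ : Algebra (Localization.Away π) K := φ.toAlgebra
  have _ : IsScalarTower B (Localization.Away π) K :=
    IsScalarTower.of_algebraMap_eq fun x => (hφ x).symm
  have _ : IsFractionRing (Localization.Away π) K :=
    IsFractionRing.isFractionRing_of_isDomain_of_isLocalization (Submonoid.powers π) _ _
  refine isIntegrallyClosed_of_away (K := K) π hπ fun z hz => ?_
  have hz' : IsIntegral (Localization.Away π) z := hz.tower_top
  obtain ⟨w, hw⟩ := (isIntegrallyClosed_iff K).1 inferInstance hz'
  obtain ⟨⟨y, s⟩, hys⟩ := IsLocalization.surj (Submonoid.powers π) w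
  obtain ⟨k, hk⟩ := s.2
  refine ⟨k, y, ?_⟩
  have h1 := congrArg (algebraMap (Localization.Away π) K) hys
  rw [map_mul, hw, ← IsScalarTower.algebraMap_apply, ← IsScalarTower.algebraMap_apply] at h1
  rw [← h1, ← hk, map_pow]

end Fermat.Agent.A2.H969
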